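import Mathlib
import Fermat.Prelude.Def_EllipticCurve_FrobeniusTrace
import Fermat.Prelude.Def_FLTPrelim_Ramification

/-!
# Frobenius cosets

A Frobenius element times an inertia element is again a Frobenius element.
-/

set_option autoImplicit false

namespace Fermat.Agent.S29

variable {K L : Type*} [Field K] [Field L] [Algebra K L]

theorem isFrobeniusAt_mul_inertia {A : ValuationSubring L} {τ σ : L ≃ₐ[K] L} {q : ℕ}
    (hτ : A.IsFrobeniusAt τ q) (hσ : σ ∈ A.inertiaSubgroupIn K) :
    A.IsFrobeniusAt (τ * σ) q := by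
  obtain ⟨hτD, hτres⟩ := hτ
  obtain ⟨s, hs, rfl⟩ := hσ
  have hs' : ∀ x : IsLocalRing.ResidueField A, s • x = x := by
    intro x
    have hs1 : (MulSemiringAction.toRingAut (A.decompositionSubgroup K)
        (IsLocalRing.ResidueField A)) s = 1 := MonoidHom.mem_ker.mp hs
    have := congrArg (fun f : IsLocalRing.ResidueField A ≃+* IsLocalRing.ResidueField A => f x) hs1
    exact this
  refine ⟨(A.decompositionSubgroup K).mul_mem hτD s.2, fun x => ?_⟩
  have e : (⟨τ * (A.decompositionSubgroup K).subtype s,
      (A.decompositionSubgroup K).mul_mem hτD s.2⟩ : A.decompositionSubgroup K)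
      = ⟨τ, hτD⟩ * s := rfl
  rw [e, mul_smul, hs' x]
  exact hτres x

end Fermat.Agent.S29
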