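import Mathlib

/-!
# [Alg-3] for S29: the residue fields of `ℤ̄ = integralClosure ℤ ℂ` are algebraically closed

`Fermat.Agent.S29.isAlgClosed_quotient`: for a maximal ideal `m` of `integralClosure ℤ ℂ`,
the quotient field is algebraically closed.

Proof: lift a monic polynomial to `ℤ̄[X]`, take a root in `ℂ`; it is integral over `ℤ̄`,
hence over `ℤ`, hence lies in `ℤ̄`; reduce it modulo `m`.
-/

namespace Fermat.Agent.S29

/-- A monic polynomial of positive degree over `integralClosure ℤ ℂ` has a root in
`integralClosure ℤ ℂ`. -/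
theorem zbar_exists_root (q : Polynomial (integralClosure ℤ ℂ)) (hq : q.Monic)
    (hdeg : q.degree ≠ 0) : ∃ z : integralClosure ℤ ℂ, q.eval z = 0 := by
  classical
  set f : integralClosure ℤ ℂ →+* ℂ := algebraMap (integralClosure ℤ ℂ) ℂ with hf
  have hmonic : (q.map f).Monic := hq.map f
  have hdeg' : (q.map f).degree ≠ 0 := by
    rw [Polynomial.degree_map_eq_of_leadingCoeff_ne_zero]
    · exact hdeg
    · rw [hq.leadingCoeff, map_one]; exact one_ne_zero
  obtain ⟨z, hz⟩ := IsAlgClosed.exists_root (q.map f) hdeg'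
  have hzint : IsIntegral (integralClosure ℤ ℂ) z := by
    refine ⟨q, hq, ?_⟩
    rw [Polynomial.eval₂_eq_eval_map]
    exact hz
  have hzint' : IsIntegral ℤ z := isIntegral_trans z hzint
  refine ⟨⟨z, hzint'⟩, ?_⟩
  have hinj : Function.Injective f := Subtype.val_injective
  apply hinj
  rw [map_zero, ← Polynomial.eval₂_hom, Polynomial.eval₂_eq_eval_map]
  exact hz

/-- Same statement under the name used by the first landed version of this file. -/
theorem exists_root_integralClosure (f : Polynomial (integralClosure ℤ ℂ)) (hf : f.Monic)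
    (hdeg : f.degree ≠ 0) : ∃ z : integralClosure ℤ ℂ, f.eval z = 0 :=
  zbar_exists_root f hf hdeg

theorem isAlgClosed_quotient (m : Ideal (integralClosure ℤ ℂ)) [m.IsMaximal] :
    letI := Ideal.Quotient.field m
    IsAlgClosed (integralClosure ℤ ℂ ⧸ m) := by
  letI := Ideal.Quotient.field m
  apply IsAlgClosed.of_exists_root
  intro p hmonic hirr
  have hsurj : Function.Surjective (Ideal.Quotient.mk m) := Ideal.Quotient.mk_surjective
  have hlift : p ∈ Polynomial.lifts (Ideal.Quotient.mk m) := by
    rw [Polynomial.mem_lifts]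
    exact Polynomial.map_surjective _ hsurj p
  obtain ⟨q, hqp, hqdeg, hqmonic⟩ := Polynomial.lifts_and_degree_eq_and_monic hlift hmonic
  have hdeg : q.degree ≠ 0 := by
    rw [hqdeg]
    exact Polynomial.degree_pos_of_irreducible hirr |>.ne'
  obtain ⟨z, hz⟩ := zbar_exists_root q hqmonic hdeg
  refine ⟨Ideal.Quotient.mk m z, ?_⟩
  rw [← hqp, Polynomial.eval_map, Polynomial.eval₂_hom, hz, map_zero]

end Fermat.Agent.S29
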