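import Mathlib
import Fermat.Prelude.Def_GaloisRep_Residual
import Fermat.Agent.S29.Core
import Fermat.Agent.S29.AlgClosed

/-!
# S29 from the Eichler–Shimura package

`s29_of_esPkg`: the frozen statement S29 follows from `∀ M p, 0 < M → p.Prime → ESPkg M p`.
-/

set_option autoImplicit false
set_option linter.style.haveILetI false

namespace Fermat.Agent.S29

open Fermat.Agent.ES Fermat.Agent.S42 Polynomial

/-- a residual representation from a matrix representation of finite level -/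
noncomputable def residualOfMatrix {k : Type} [Field k]
    (ρ' : GQ →* Matrix (Fin 2) (Fin 2) k)
    (h : ∃ F : IntermediateField ℚ (AlgebraicClosure ℚ), FiniteDimensional ℚ F ∧
      ∀ σ : GQ, (∀ x ∈ F, σ x = x) → ρ' σ = 1) : ResidualGaloisRep k where
  V := Fin 2 → k
  finrank_eq := Module.finrank_fin_fun k
  ρ := ((Matrix.toLinAlgEquiv' : Matrix (Fin 2) (Fin 2) k ≃ₐ[k] _) :
      Matrix (Fin 2) (Fin 2) k →* _).comp ρ'
  factorsThroughFiniteLevel := by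
    obtain ⟨F, hF, hF1⟩ := h
    refine ⟨F, hF, fun σ hσ => ?_⟩
    show Matrix.toLin' (ρ' σ) = 1
    rw [hF1 σ hσ]
    exact Matrix.toLin'_one

theorem residualOfMatrix_ρ {k : Type} [Field k] (ρ' : GQ →* Matrix (Fin 2) (Fin 2) k)
    (h : ∃ F : IntermediateField ℚ (AlgebraicClosure ℚ), FiniteDimensional ℚ F ∧
      ∀ σ : GQ, (∀ x ∈ F, σ x = x) → ρ' σ = 1) (σ : GQ) :
    (residualOfMatrix ρ' h).ρ σ = Matrix.toLin' (ρ' σ) := rfl

theorem charpoly_toLin' {k : Type} [Field k] (A : Matrix (Fin 2) (Fin 2) k) :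
    LinearMap.charpoly (Matrix.toLin' A) = X ^ 2 - C A.trace * X + C A.det := by
  rw [← LinearMap.charpoly_toMatrix (Matrix.toLin' A) (Pi.basisFun k (Fin 2)),
    LinearMap.toMatrix_eq_toMatrix', LinearMap.toMatrix'_toLin', Matrix.charpoly_fin_two]

theorem s29_of_esPkg (hES : ∀ M p : ℕ, 0 < M → p.Prime → ESPkg M p)
    {N : ℕ} {g : CuspForm (CongruenceSubgroup.Gamma0 N) 2} (hg : g.IsNormalizedEigenform)
    {p : ℕ} (hp : p.Prime) {k : Type} [Field k] [CharP k p]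
    (φ : integralClosure ℤ ℂ →+* k) :
    ∃ ρ : ResidualGaloisRep k, ρ.IsAttachedTo g φ ∧
      ∀ ℓ : ℕ, ℓ.Prime → ¬ ℓ ∣ N * p → ρ.IsUnramifiedAt ℓ := by
  classical
  haveI : Fact p.Prime := ⟨hp⟩
  rcases Nat.eq_zero_or_pos N with hN | hN
  · -- level zero: everything is vacuous
    subst hN
    refine ⟨residualOfMatrix 1 ⟨⊥, inferInstance, fun _ _ => rfl⟩, ?_, ?_⟩
    · intro ℓ _ hℓ
      exact absurd (dvd_zero ℓ) hℓ
    · intro ℓ _ hℓ
      rw [zero_mul] at hℓ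
      exact absurd (dvd_zero ℓ) hℓ
  · set 𝔪 : Ideal Zbar := RingHom.ker φ with h𝔪def
    haveI h𝔪 : 𝔪.IsMaximal :=
      ker_isMaximal_of_isIntegral p φ fun z =>
        map_isIntegral_int φ (Algebra.IsIntegral.isIntegral (R := ℤ) z)
    letI : Field (Zbar ⧸ 𝔪) := Ideal.Quotient.field 𝔪
    haveI : IsAlgClosed (Zbar ⧸ 𝔪) := isAlgClosed_quotient 𝔪
    let ψ : Zbar →+* (Zbar ⧸ 𝔪) := Ideal.Quotient.mk 𝔪
    let φbar : (Zbar ⧸ 𝔪) →+* k := RingHom.kerLift φ
    have hφbar : ∀ z : Zbar, φbar (ψ z) = φ z := fun z => RingHom.kerLift_mk φ z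
    haveI : CharP (Zbar ⧸ 𝔪) p := by
      rw [CharP.charP_iff_prime_eq_zero hp]
      apply φbar.injective
      rw [map_natCast, map_zero]
      exact CharP.cast_eq_zero k p
    obtain ⟨F, ρ', hFfin, hker, hfrob, hunr⟩ :=
      exists_residual_rep_gen N p hN hp (hES N p hN hp) g hg (Zbar ⧸ 𝔪) ψ
    let ρk : GQ →* Matrix (Fin 2) (Fin 2) k :=
      ((φbar.mapMatrix : Matrix (Fin 2) (Fin 2) (Zbar ⧸ 𝔪) →+* Matrix (Fin 2) (Fin 2) k) :
        Matrix (Fin 2) (Fin 2) (Zbar ⧸ 𝔪) →* Matrix (Fin 2) (Fin 2) k).comp ρ'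
    have hρk : ∀ σ, ρk σ = φbar.mapMatrix (ρ' σ) := fun σ => rfl
    have hone : ∀ σ, ρ' σ = 1 → ρk σ = 1 := fun σ h => by rw [hρk, h, map_one]
    refine ⟨residualOfMatrix ρk ⟨F, hFfin, fun σ hσ => hone σ (hker σ hσ)⟩, ?_, ?_⟩
    · intro ℓ hℓ hℓN hℓk A hA σ hσ
      have hℓNp : ¬ ℓ ∣ N * p := by
        intro h
        rcases (Nat.Prime.dvd_mul hℓ).mp h with h | h
        · exact hℓN h
        · have : ℓ = p := (Nat.prime_dvd_prime_iff_eq hℓ hp).mp h
          exact hℓk (by rw [this]; exact CharP.cast_eq_zero k p)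
      obtain ⟨⟨a, ha, htr⟩, hdet⟩ := hfrob ℓ hℓ hℓNp A hA σ hσ
      refine ⟨a, ha, ?_⟩
      refine (charpoly_toLin' (ρk σ)).trans ?_
      rw [hρk]
      have e1 : (φbar.mapMatrix (ρ' σ)).trace = φ a := by
        rw [RingHom.mapMatrix_apply, ← hφbar a, ← htr]
        exact (AddMonoidHom.map_trace φbar.toAddMonoidHom (ρ' σ)).symm
      have e2 : (φbar.mapMatrix (ρ' σ)).det = (ℓ : k) := by
        rw [← RingHom.map_det, hdet, map_natCast]
      rw [e1, e2]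
    · intro ℓ hℓ hℓNp A hA σ hσ
      refine (residualOfMatrix_ρ ρk _ σ).trans ?_
      rw [hone σ (hunr ℓ hℓ hℓNp A hA σ hσ)]
      exact Matrix.toLin'_one

end Fermat.Agent.S29
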