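import Mathlib
import Fermat.Agent.S29.Final
import Fermat.Agent.ES.Final

/-!
# S29 from the two remaining inputs of the Eichler–Shimura mountain

`s29_of_inputs` : S29 (frozen type) from `Fermat.Agent.INJ.StmtINJAll` (G2) and
`Fermat.Agent.ES.TorsionUnif M p` for all levels `M > 0` and all primes `p` (G1).
-/

set_option autoImplicit false

namespace Fermat.Agent.S29

open Fermat.Agent.ES

theorem s29_of_inputs (hINJ : Fermat.Agent.INJ.StmtINJAll)
    (hUT : ∀ (M p : ℕ) [NeZero M], p.Prime → TorsionUnif M p)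
    {N : ℕ} {g : CuspForm (CongruenceSubgroup.Gamma0 N) 2} (hg : g.IsNormalizedEigenform)
    {p : ℕ} (hp : p.Prime) {k : Type} [Field k] [CharP k p]
    (φ : integralClosure ℤ ℂ →+* k) :
    ∃ ρ : ResidualGaloisRep k, ρ.IsAttachedTo g φ ∧
      ∀ ℓ : ℕ, ℓ.Prime → ¬ ℓ ∣ N * p → ρ.IsUnramifiedAt ℓ :=
  s29_of_esPkg (esPkg_all hINJ hUT) hg hp φ

end Fermat.Agent.S29
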