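import Mathlib
import Fermat.Agent.S29.OfInputs
import Fermat.Agent.ES.TorsionUnifProved

/-!
# S29 from the single remaining input `INJ.StmtINJAll`
-/

set_option autoImplicit false

namespace Fermat.Agent.S29

theorem s29_of_inj (hINJ : Fermat.Agent.INJ.StmtINJAll)
    {N : ℕ} {g : CuspForm (CongruenceSubgroup.Gamma0 N) 2} (hg : g.IsNormalizedEigenform)
    {p : ℕ} (hp : p.Prime) {k : Type} [Field k] [CharP k p]
    (φ : integralClosure ℤ ℂ →+* k) :
    ∃ ρ : ResidualGaloisRep k, ρ.IsAttachedTo g φ ∧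
      ∀ ℓ : ℕ, ℓ.Prime → ¬ ℓ ∣ N * p → ρ.IsUnramifiedAt ℓ :=
  s29_of_inputs hINJ (fun M p _ hp => Fermat.Agent.ES.torsionUnif_proved M p hp.pos) hg hp φ

end Fermat.Agent.S29
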